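import Fermat.Agent.S09
import Fermat.Agent.S43
import Fermat.Agent.S44
import Fermat.Prelude.Def_FLTPrelim_ModularRep
import Fermat.Prelude.Def_FLTPrelim_Ramification
import Fermat.Prelude.Def_FreyPackage_IsConductorLevel

/-!
# The mod `p` representation of the Frey curve: irreducibility and level lowering

`freyIrreducible`, `levelLoweringAtP` and `levelLoweringOdd` restate the proved statements S09,
S44 and S43.
-/

set_option autoImplicit false

open WeierstrassCurve WeierstrassCurve.Affine WeierstrassCurve.Affine.Point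

namespace FLTAgent.Main.Inputs

/-- S09 (Mazur). -/
theorem freyIrreducible (P : FreyPackage) :
    GaloisRepIsIrreducible (K := AlgebraicClosure ℚ) ℚ P.freyCurve P.p :=
  Fermat.Agent.S09.result P

/-- S44 (Mazur-Ribet at `p`). -/
theorem levelLoweringAtP (P : FreyPackage) {N : ℕ} (hcond : P.IsConductorLevel N) (hpN : P.p ∣ N)
    (hirr : GaloisRepIsIrreducible (K := AlgebraicClosure ℚ) ℚ P.freyCurve P.p)
    (hmod : P.ModularRepOfLevel N) :
    ∃ M : ℕ, M ∣ N ∧ ¬ P.p ∣ M ∧ P.ModularRepOfLevel M :=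
  Fermat.Agent.S44.result P hcond hpN hirr hmod

/-- S43 (Ribet at odd primes). -/
theorem levelLoweringOdd (P : FreyPackage) {N q : ℕ} (hcond : P.IsConductorLevel N) (hq : q.Prime)
    (hq2 : q ≠ 2) (hqp : q ≠ P.p) (hqN : q ∣ N)
    (hirr : GaloisRepIsIrreducible (K := AlgebraicClosure ℚ) ℚ P.freyCurve P.p)
    (hmod : P.ModularRepOfLevel N) (hunr : P.GaloisRepUnramifiedAt q) :
    ∃ M : ℕ, M ∣ N ∧ ¬ q ∣ M ∧ P.ModularRepOfLevel M :=
  Fermat.Agent.S43.result P hcond hq hq2 hqp hqN hirr hmod hunr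

end FLTAgent.Main.Inputs
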