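import Mathlib
import Fermat.Prelude.Def_FLTPrelim_ModularRep
import Fermat.Agent.Lower.Lift.Main

/-!
# Modularity lifting at `3` and `5`

`modular_of_residual` restates `Lower.Lift.modular_of_residual` in the form used by
`Main.Modular`.
-/

set_option autoImplicit false

namespace FLTAgent.Main.Inputs

/-- A semistable curve with irreducible mod `p` representation (`p = 3, 5`), residually modular of
a squarefree level prime to `p` when `p` is good, is modular of some cube-free level. -/
theorem modular_of_residual (p : ℕ) (hp : p = 3 ∨ p = 5) (W : WeierstrassCurve ℤ) (hΔ : W.Δ ≠ 0)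
    (hW : W.IsSemistableModel) (hirr : W.ModRepIsIrreducible p) (M : ℕ) (hM : Squarefree M)
    (hMp : W.IsGoodPrimeFor p → ¬ p ∣ M) (hres : W.IsResiduallyModularOfLevel p M) :
    ∃ N : ℕ, (∀ q : ℕ, q.Prime → ¬ q ^ 3 ∣ N) ∧ W.IsModularModelOfLevel N :=
  haveI : Fact p.Prime := ⟨by rcases hp with rfl | rfl <;> norm_num⟩
  Lower.Lift.modular_of_residual hp W hΔ hW hirr M hM hMp hres

end FLTAgent.Main.Inputs
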