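import Mathlib
import Fermat.Prelude.Def_FLTPrelim_ModularRep
import Fermat.Agent.Mod2.Lifting

/-!
# The 2-adic modularity theorem

`modular_of_twoAdic` restates `Mod2.modular_of_odd_valuations` in the form used by `Main.Modular`.
-/

set_option autoImplicit false

namespace FLTAgent.Main.Inputs

/-- A semistable curve of negative discriminant, even, with odd valuation of the discriminant at every
bad prime and irreducible mod `2` representation, is modular of some cube-free level. -/
theorem modular_of_twoAdic (E : WeierstrassCurve ℤ) (hE : E.IsSemistableModel) (hneg : E.Δ < 0)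
    (h2 : (2 : ℤ) ∣ E.Δ)
    (hodd : ∀ q : ℕ, q.Prime → (q : ℤ) ∣ E.Δ → Odd (padicValInt q E.Δ))
    (hirr : E.ModRepIsIrreducible 2) :
    ∃ N : ℕ, (∀ q : ℕ, q.Prime → ¬ q ^ 3 ∣ N) ∧ E.IsModularModelOfLevel N :=
  FLTAgent.Mod2.modular_of_odd_valuations E hE hneg h2 hodd hirr

end FLTAgent.Main.Inputs
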